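import Fermat.Prelude.Def_HeckeGalois_EichlerShimura

/-!
# S37, formal part

`J' := J / R`, where `R` is the Hecke submodule generated by `τ x - x` (`τ` in the inertia group)
and by `s₀ s₀ x - T_ℓ s₀ x + ℓ x` (`s₀` a fixed Frobenius).  Everything in
`IsSpecialization`/`SpecialFibreRelation` is formal except injectivity on `p`-power torsion.
-/

set_option autoImplicit false

noncomputable section

namespace Fermat.Agent.S37

open ModularCurve ValuationSubring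

variable {K L : Type*} [Field K] [Field L] [Algebra K L]

section Group

variable (A : ValuationSubring L)

theorem mem_inertiaSubgroupIn_iff (σ : L ≃ₐ[K] L) :
    σ ∈ A.inertiaSubgroupIn K ↔ ∃ hσ : σ ∈ A.decompositionSubgroup K,
      ∀ x : IsLocalRing.ResidueField A, (⟨σ, hσ⟩ : A.decompositionSubgroup K) • x = x := by
  constructor
  · rintro ⟨⟨τ, hτ⟩, hker, rfl⟩
    refine ⟨hτ, fun x => ?_⟩
    have h1 : MulSemiringAction.toRingAut (A.decompositionSubgroup K)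
        (IsLocalRing.ResidueField A) ⟨τ, hτ⟩ = 1 := hker
    exact congrArg (fun e : RingAut (IsLocalRing.ResidueField A) => e x) h1
  · rintro ⟨hσ, h⟩
    refine ⟨⟨σ, hσ⟩, ?_, rfl⟩
    show MulSemiringAction.toRingAut (A.decompositionSubgroup K)
        (IsLocalRing.ResidueField A) ⟨σ, hσ⟩ = 1
    ext x
    exact h x

theorem conj_mem_inertiaSubgroupIn {s τ : L ≃ₐ[K] L} (hs : s ∈ A.decompositionSubgroup K)
    (hτ : τ ∈ A.inertiaSubgroupIn K) : s * τ * s⁻¹ ∈ A.inertiaSubgroupIn K := by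
  rw [mem_inertiaSubgroupIn_iff] at hτ ⊢
  obtain ⟨hτ1, hτ2⟩ := hτ
  refine ⟨mul_mem (mul_mem hs hτ1) (inv_mem hs), fun x => ?_⟩
  have h : (⟨s * τ * s⁻¹, mul_mem (mul_mem hs hτ1) (inv_mem hs)⟩ : A.decompositionSubgroup K)
      = (⟨s, hs⟩ : A.decompositionSubgroup K) * ⟨τ, hτ1⟩ * (⟨s, hs⟩ : A.decompositionSubgroup K)⁻¹ :=
    rfl
  rw [h, mul_smul, mul_smul, hτ2, smul_inv_smul]

theorem inv_mul_mem_inertiaSubgroupIn {s σ : L ≃ₐ[K] L} {ℓ : ℕ} (hs : A.IsFrobeniusAt s ℓ)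
    (hσ : A.IsFrobeniusAt σ ℓ) : s⁻¹ * σ ∈ A.inertiaSubgroupIn K := by
  rw [mem_inertiaSubgroupIn_iff]
  obtain ⟨hs1, hs2⟩ := hs
  obtain ⟨hσ1, hσ2⟩ := hσ
  refine ⟨mul_mem (inv_mem hs1) hσ1, fun x => ?_⟩
  have h : (⟨s⁻¹ * σ, mul_mem (inv_mem hs1) hσ1⟩ : A.decompositionSubgroup K)
      = (⟨s, hs1⟩ : A.decompositionSubgroup K)⁻¹ * ⟨σ, hσ1⟩ := rfl
  rw [h, mul_smul, hσ2, ← hs2, inv_smul_smul]

end Group

section Quotient

variable (J : Type) [AddCommGroup J] [Module HeckeAlg J]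
  [DistribMulAction (L ≃ₐ[K] L) J] [SMulCommClass (L ≃ₐ[K] L) HeckeAlg J]
variable (A : ValuationSubring L) (ℓ : ℕ) (hℓ : ℓ.Prime) (s₀ : L ≃ₐ[K] L)

/-- The Eichler–Shimura operator `s₀² - T_ℓ s₀ + ℓ`. -/
def esOp (x : J) : J := s₀ • s₀ • x - heckeGen ⟨ℓ, hℓ⟩ • (s₀ • x) + ℓ • x

/-- generators of the relation module -/
def relGens : Set J :=
  {z | ∃ τ ∈ A.inertiaSubgroupIn K, ∃ x : J, z = τ • x - x} ∪
    {z | ∃ x : J, z = esOp J ℓ hℓ s₀ x}

/-- the relation module -/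
def relSub : Submodule HeckeAlg J := Submodule.span HeckeAlg (relGens J A ℓ hℓ s₀)

variable {J A ℓ hℓ s₀}

theorem esOp_add (x y : J) : esOp J ℓ hℓ s₀ (x + y) = esOp J ℓ hℓ s₀ x + esOp J ℓ hℓ s₀ y := by
  simp only [esOp, smul_add]
  abel

theorem esOp_zero : esOp J ℓ hℓ s₀ (0 : J) = 0 := by
  simp [esOp]

theorem esOp_neg (x : J) : esOp J ℓ hℓ s₀ (-x) = - esOp J ℓ hℓ s₀ x := by
  simp only [esOp, smul_neg]
  abel

theorem smul_esOp (T : HeckeAlg) (x : J) : T • esOp J ℓ hℓ s₀ x = esOp J ℓ hℓ s₀ (T • x) := by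
  simp only [esOp, smul_add, smul_sub]
  rw [← smul_comm s₀ T (s₀ • x), ← smul_comm s₀ T x, smul_comm T (heckeGen ⟨ℓ, hℓ⟩) (s₀ • x),
    smul_comm T ℓ x, smul_comm s₀ T x]

theorem gal_smul_esOp (x : J) : s₀ • esOp J ℓ hℓ s₀ x = esOp J ℓ hℓ s₀ (s₀ • x) := by
  simp only [esOp, smul_add, smul_sub]
  rw [smul_comm s₀ (heckeGen ⟨ℓ, hℓ⟩) (s₀ • x), smul_comm s₀ ℓ x]

theorem smul_mem_relGens (T : HeckeAlg) {z : J} (hz : z ∈ relGens J A ℓ hℓ s₀) :
    T • z ∈ relGens J A ℓ hℓ s₀ := by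
  rcases hz with ⟨τ, hτ, x, rfl⟩ | ⟨x, rfl⟩
  · exact Or.inl ⟨τ, hτ, T • x, by rw [smul_sub, smul_comm τ T x]⟩
  · exact Or.inr ⟨T • x, smul_esOp T x⟩

theorem smul_mem_closure_relGens (T : HeckeAlg) {z : J}
    (hz : z ∈ AddSubgroup.closure (relGens J A ℓ hℓ s₀)) :
    T • z ∈ AddSubgroup.closure (relGens J A ℓ hℓ s₀) := by
  induction hz using AddSubgroup.closure_induction with
  | mem y hy => exact AddSubgroup.subset_closure (smul_mem_relGens T hy)
  | zero => rw [smul_zero]; exact zero_mem _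
  | add y y' _ _ hy hy' => rw [smul_add]; exact AddMemClass.add_mem hy hy'
  | neg y _ hy => rw [smul_neg]; exact NegMemClass.neg_mem hy

omit [Module HeckeAlg J] [SMulCommClass (L ≃ₐ[K] L) HeckeAlg J] in
theorem neg_sum_map (l : List ((L ≃ₐ[K] L) × J)) :
    -(l.map fun t => t.1 • t.2 - t.2).sum =
      ((l.map fun t => (t.1, -t.2)).map fun t => t.1 • t.2 - t.2).sum := by
  induction l with
  | nil => simp
  | cons a l ih =>
    simp only [List.map_cons, List.sum_cons, neg_add, smul_neg]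
    rw [ih]
    abel

/-- The relation module is the additive subgroup generated by the generators. -/
theorem mem_relSub_iff (z : J) :
    z ∈ relSub J A ℓ hℓ s₀ ↔ z ∈ AddSubgroup.closure (relGens J A ℓ hℓ s₀) := by
  constructor
  · intro hz
    induction hz using Submodule.span_induction with
    | mem x hx => exact AddSubgroup.subset_closure hx
    | zero => exact zero_mem _
    | add x y _ _ hx hy => exact AddMemClass.add_mem hx hy
    | smul T x _ hx => exact smul_mem_closure_relGens T hx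
  · intro hz
    induction hz using AddSubgroup.closure_induction with
    | mem y hy => exact Submodule.subset_span hy
    | zero => exact zero_mem _
    | add y y' _ _ hy hy' => exact AddMemClass.add_mem hy hy'
    | neg y _ hy => exact NegMemClass.neg_mem hy

/-- Normal form of the elements of the relation module. -/
theorem exists_of_mem_relSub {z : J} (hz : z ∈ relSub J A ℓ hℓ s₀) :
    ∃ (l : List ((L ≃ₐ[K] L) × J)) (b : J), (∀ t ∈ l, t.1 ∈ A.inertiaSubgroupIn K) ∧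
      z = (l.map fun t => t.1 • t.2 - t.2).sum + esOp J ℓ hℓ s₀ b := by
  rw [mem_relSub_iff] at hz
  induction hz using AddSubgroup.closure_induction with
  | mem y hy =>
    rcases hy with ⟨τ, hτ, x, rfl⟩ | ⟨x, rfl⟩
    · refine ⟨[(τ, x)], 0, ?_, ?_⟩
      · intro t ht
        rw [List.mem_singleton] at ht
        rw [ht]; exact hτ
      · simp [esOp_zero]
    · exact ⟨[], x, by simp, by simp⟩
  | zero => exact ⟨[], 0, by simp, by simp [esOp_zero]⟩
  | add y y' _ _ hy hy' =>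
    obtain ⟨l, b, hl, rfl⟩ := hy
    obtain ⟨l', b', hl', rfl⟩ := hy'
    refine ⟨l ++ l', b + b', ?_, ?_⟩
    · intro t ht
      rcases List.mem_append.mp ht with h | h
      · exact hl t h
      · exact hl' t h
    · rw [List.map_append, List.sum_append, esOp_add]
      abel
  | neg y _ hy =>
    obtain ⟨l, b, hl, rfl⟩ := hy
    refine ⟨l.map fun t => (t.1, -t.2), -b, ?_, ?_⟩
    · intro t ht
      obtain ⟨t', ht', rfl⟩ := List.mem_map.mp ht
      exact hl t' ht'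
    · rw [esOp_neg, neg_add, neg_sum_map]

variable (J) in
/-- the Galois action of `s₀` as a Hecke-linear map -/
def galLin (s : L ≃ₐ[K] L) : J →ₗ[HeckeAlg] J where
  toFun x := s • x
  map_add' x y := smul_add s x y
  map_smul' T x := smul_comm s T x

theorem relSub_le_comap (hs₀ : s₀ ∈ A.decompositionSubgroup K) :
    relSub J A ℓ hℓ s₀ ≤ (relSub J A ℓ hℓ s₀).comap (galLin J s₀) := by
  rw [relSub, Submodule.span_le]
  rintro z (⟨τ, hτ, x, rfl⟩ | ⟨x, rfl⟩)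
  · refine Submodule.subset_span (Or.inl ⟨s₀ * τ * s₀⁻¹, conj_mem_inertiaSubgroupIn A hs₀ hτ,
      s₀ • x, ?_⟩)
    show s₀ • (τ • x - x) = _
    rw [smul_sub, mul_smul, mul_smul, inv_smul_smul]
  · exact Submodule.subset_span (Or.inr ⟨s₀ • x, gal_smul_esOp x⟩)

end Quotient

section Main

variable (p : ℕ) (J : Type) [AddCommGroup J] [Module HeckeAlg J]
  [DistribMulAction (L ≃ₐ[K] L) J] [SMulCommClass (L ≃ₐ[K] L) HeckeAlg J]

/-- **Formal part of S37.** -/
theorem exists_specialization_of_inj (A : ValuationSubring L) (ℓ : ℕ) (hℓ : ℓ.Prime)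
    (s₀ : L ≃ₐ[K] L) (hs₀ : A.IsFrobeniusAt s₀ ℓ)
    (hinj : ∀ x ∈ relSub J A ℓ hℓ s₀, (∃ n : ℕ, p ^ n • x = 0) → x = 0) :
    ∃ (J' : Type) (_ : AddCommGroup J') (_ : Module HeckeAlg J') (sp : J →+ J')
      (F : J' →+ J'),
      IsSpecialization (K := K) p J J' A ℓ sp F ∧ SpecialFibreRelation J' ℓ hℓ F := by
  set R := relSub J A ℓ hℓ s₀ with hR
  have hdec := hs₀.mem_decompositionSubgroup
  let Fl : (J ⧸ R) →ₗ[HeckeAlg] (J ⧸ R) := R.mapQ R (galLin J s₀) (relSub_le_comap hdec)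
  have hFl : ∀ x : J, Fl (R.mkQ x) = R.mkQ (s₀ • x) := fun x => rfl
  have hin : ∀ σ ∈ A.inertiaSubgroupIn K, ∀ x : J, R.mkQ (σ • x) = R.mkQ x := by
    intro σ hσ x
    rw [← sub_eq_zero, ← map_sub, Submodule.mkQ_apply, Submodule.Quotient.mk_eq_zero]
    exact Submodule.subset_span (Or.inl ⟨σ, hσ, x, rfl⟩)
  refine ⟨J ⧸ R, inferInstance, inferInstance, R.mkQ.toAddMonoidHom, Fl.toAddMonoidHom,
    ⟨fun T x => map_smul R.mkQ T x, hin, ?_, ?_⟩, ?_⟩
  · intro σ hσ x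
    show R.mkQ (σ • x) = Fl (R.mkQ x)
    have h1 : σ • x = s₀ • ((s₀⁻¹ * σ) • x) := by rw [mul_smul, smul_inv_smul]
    rw [h1, ← hFl, hin _ (inv_mul_mem_inertiaSubgroupIn A hs₀ hσ)]
  · intro x hx h0
    have h0' : R.mkQ x = 0 := h0
    rw [Submodule.mkQ_apply, Submodule.Quotient.mk_eq_zero] at h0'
    exact hinj x h0' hx
  · intro y
    obtain ⟨x, rfl⟩ := R.mkQ_surjective y
    show Fl (Fl (R.mkQ x)) - heckeGen ⟨ℓ, hℓ⟩ • Fl (R.mkQ x) + ℓ • R.mkQ x = 0
    rw [hFl, hFl, ← map_smul, ← map_nsmul, ← map_sub, ← map_add, Submodule.mkQ_apply,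
      Submodule.Quotient.mk_eq_zero]
    exact Submodule.subset_span (Or.inr ⟨x, rfl⟩)

end Main

end Fermat.Agent.S37

end
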