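import Mathlib
import Fermat.Prelude.Def_ModularCurve_HeckeModule
import Fermat.Agent.S37.FFNorm.Main
import Fermat.Agent.ES.B.H1.Degree

/-!
# S37: `HeckeInputsAlong ℚ̄ N ℓ` holds

So the Prelude Hecke operator `heckeOperatorAlong ℚ̄ N ℓ` on `J₀(N)(ℚ̄) = Pic⁰` is the honest
correspondence `α_* β^*`.
-/

set_option autoImplicit false
set_option linter.style.haveILetI false

open AlgebraicCurve ModularCurve IntermediateField

namespace Fermat.Agent.S37

section General

variable {K F F' : Type*} [Field K] [IsAlgClosed K] [CharZero K] [Field F] [Field F']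
    [Algebra K F] [Algebra K F']

theorem normFormulaAlong (φ : F →ₐ[K] F') (hfin : FiniteAlong K φ)
    (y : F) (hy : Transcendental K y) [FiniteDimensional K⟮y⟯ F]
    (y' : F') (hy' : Transcendental K y') [FiniteDimensional K⟮y'⟯ F'] :
    NormFormulaAlong K φ hfin := by
  letI := algebraAlong φ
  haveI := isScalarTower_along φ
  haveI : Module.Finite F F' := hfin
  exact FFNorm.pushforwardNormFormula y hy y' hy'

theorem fundamentalIdentityAlong (φ : F →ₐ[K] F') (hφ : φ.toRingHom.IsIntegral)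
    (hfin : FiniteAlong K φ) [HasPrincipalDivisors K F']
    (y : F) (hy : Transcendental K y) [FiniteDimensional K⟮y⟯ F]
    (y' : F') (hy' : Transcendental K y') [FiniteDimensional K⟮y'⟯ F'] :
    FundamentalIdentityAlong K φ hφ := by
  letI := algebraAlong φ
  haveI := isScalarTower_along φ
  haveI := isIntegral_along φ hφ
  haveI : Module.Finite F F' := hfin
  exact FFNorm.fundamentalIdentity y hy y' hy'

theorem inertiaDegAlong_eq_one (φ : F →ₐ[K] F') (hφ : φ.toRingHom.IsIntegral)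
    (hfin : FiniteAlong K φ)
    (y : F) (hy : Transcendental K y) [FiniteDimensional K⟮y⟯ F]
    (y' : F') (hy' : Transcendental K y') [FiniteDimensional K⟮y'⟯ F'] (w : Place K F') :
    w.inertiaDegAlong φ hφ = 1 := by
  letI := algebraAlong φ
  haveI := isScalarTower_along φ
  haveI := isIntegral_along φ hφ
  haveI : Module.Finite F F' := hfin
  exact FFNorm.inertiaDeg_eq_one y hy y' hy' w

/-- `ord_v (Norm_φ g) = ∑_{w ∣ v} ord_w g` along an embedding `φ`. -/
theorem ord_norm_along_eq_sum (φ : F →ₐ[K] F') (hφ : φ.toRingHom.IsIntegral)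
    (hfin : FiniteAlong K φ) [HasPrincipalDivisors K F']
    (y : F) (hy : Transcendental K y) [FiniteDimensional K⟮y⟯ F] (v : Place K F)
    (g : F') (hg : g ≠ 0) :
    v.ord (letI := algebraAlong φ; Algebra.norm F g) = ∑ w ∈ Place.fiberAlong φ hφ v, w.ord g := by
  letI := algebraAlong φ
  haveI := isScalarTower_along φ
  haveI := isIntegral_along φ hφ
  haveI : Module.Finite F F' := hfin
  exact FFNorm.ord_norm_eq_sum y hy v _ (fun w => Place.mem_fiber) g hg

end General

theorem hasPrincipalDivisors_FF (N : ℕ) [NeZero N] :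
    HasPrincipalDivisors (AlgebraicClosure ℚ)
      (laurentBaseChange (AlgebraicClosure ℚ) (modularFunctionFieldFull N)) := by
  haveI := S24.finiteDimensional_FN N
  exact FFNorm.hasPrincipalDivisors (S24.jN N) (S24.transcendental_jN N)

theorem normFormulaAlong_heckeAlpha (N ℓ : ℕ) [NeZero N] [NeZero ℓ] :
    NormFormulaAlong (AlgebraicClosure ℚ) (heckeAlphaBar (AlgebraicClosure ℚ) N ℓ)
      (ES.finiteAlong_heckeAlpha N ℓ) := by
  haveI : NeZero (N * ℓ) := ⟨Nat.mul_ne_zero (NeZero.ne N) (NeZero.ne ℓ)⟩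
  haveI := S24.finiteDimensional_FN N
  haveI := S24.finiteDimensional_FN (N * ℓ)
  exact normFormulaAlong _ _ (S24.jN N) (S24.transcendental_jN N) (S24.jN (N * ℓ))
    (S24.transcendental_jN (N * ℓ))

theorem normFormulaAlong_heckeBeta (N ℓ : ℕ) [NeZero N] [NeZero ℓ] :
    NormFormulaAlong (AlgebraicClosure ℚ) (heckeBetaBar (AlgebraicClosure ℚ) N ℓ)
      (ES.finiteAlong_heckeBeta N ℓ) := by
  haveI : NeZero (N * ℓ) := ⟨Nat.mul_ne_zero (NeZero.ne N) (NeZero.ne ℓ)⟩
  haveI := S24.finiteDimensional_FN N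
  haveI := S24.finiteDimensional_FN (N * ℓ)
  exact normFormulaAlong _ _ (S24.jN N) (S24.transcendental_jN N) (S24.jN (N * ℓ))
    (S24.transcendental_jN (N * ℓ))

theorem fundamentalIdentityAlong_heckeBeta (N ℓ : ℕ) [NeZero N] [NeZero ℓ]
    [HasPrincipalDivisors (AlgebraicClosure ℚ)
      (laurentBaseChange (AlgebraicClosure ℚ) (modularFunctionFieldFull (N * ℓ)))] :
    FundamentalIdentityAlong (AlgebraicClosure ℚ) (heckeBetaBar (AlgebraicClosure ℚ) N ℓ)
      (ES.heckeBetaBarIntegral N ℓ) := by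
  haveI : NeZero (N * ℓ) := ⟨Nat.mul_ne_zero (NeZero.ne N) (NeZero.ne ℓ)⟩
  haveI := S24.finiteDimensional_FN N
  haveI := S24.finiteDimensional_FN (N * ℓ)
  exact fundamentalIdentityAlong _ _ (ES.finiteAlong_heckeBeta N ℓ) (S24.jN N)
    (S24.transcendental_jN N) (S24.jN (N * ℓ)) (S24.transcendental_jN (N * ℓ))

theorem fundamentalIdentityAlong_heckeAlpha (N ℓ : ℕ) [NeZero N] [NeZero ℓ]
    [HasPrincipalDivisors (AlgebraicClosure ℚ)
      (laurentBaseChange (AlgebraicClosure ℚ) (modularFunctionFieldFull (N * ℓ)))] :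
    FundamentalIdentityAlong (AlgebraicClosure ℚ) (heckeAlphaBar (AlgebraicClosure ℚ) N ℓ)
      (ES.heckeAlphaBarIntegral N ℓ) := by
  haveI : NeZero (N * ℓ) := ⟨Nat.mul_ne_zero (NeZero.ne N) (NeZero.ne ℓ)⟩
  haveI := S24.finiteDimensional_FN N
  haveI := S24.finiteDimensional_FN (N * ℓ)
  exact fundamentalIdentityAlong _ _ (ES.finiteAlong_heckeAlpha N ℓ) (S24.jN N)
    (S24.transcendental_jN N) (S24.jN (N * ℓ)) (S24.transcendental_jN (N * ℓ))

/-- **The inputs of the Prelude Hecke operator hold over `ℚ̄`** (no primality needed). -/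
theorem heckeInputsAlong (N ℓ : ℕ) [NeZero N] [NeZero ℓ] :
    HeckeInputsAlong (AlgebraicClosure ℚ) N ℓ := by
  haveI : NeZero (N * ℓ) := ⟨Nat.mul_ne_zero (NeZero.ne N) (NeZero.ne ℓ)⟩
  haveI := hasPrincipalDivisors_FF (N * ℓ)
  exact heckeInputsAlong_intro (ES.heckeAlphaBarIntegral N ℓ) (ES.heckeBetaBarIntegral N ℓ)
    (fundamentalIdentityAlong_heckeBeta N ℓ) (ES.finiteAlong_heckeAlpha N ℓ)
    (normFormulaAlong_heckeAlpha N ℓ)

/-- The Prelude Hecke operator is the correspondence `α_* β^*` on divisor classes. -/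
theorem heckeOperatorAlong_mk (N ℓ : ℕ) [NeZero N] [NeZero ℓ]
    [HasPrincipalDivisors (AlgebraicClosure ℚ)
      (laurentBaseChange (AlgebraicClosure ℚ) (modularFunctionFieldFull (N * ℓ)))]
    (D : Divisor.degZero (K := AlgebraicClosure ℚ)
      (F := laurentBaseChange (AlgebraicClosure ℚ) (modularFunctionFieldFull N))) :
    heckeOperatorAlong (AlgebraicClosure ℚ) N ℓ (Pic0.mk D) =
      Pic0.mk (Pic0.degZeroCorrespondence (heckeBetaBar (AlgebraicClosure ℚ) N ℓ)
        (heckeAlphaBar (AlgebraicClosure ℚ) N ℓ) (ES.heckeBetaBarIntegral N ℓ)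
        (ES.heckeAlphaBarIntegral N ℓ) (fundamentalIdentityAlong_heckeBeta N ℓ) D) := by
  rw [heckeOperatorAlong_eq (ES.heckeAlphaBarIntegral N ℓ) (ES.heckeBetaBarIntegral N ℓ)
    (fundamentalIdentityAlong_heckeBeta N ℓ) (ES.finiteAlong_heckeAlpha N ℓ)
    (normFormulaAlong_heckeAlpha N ℓ)]
  rfl

/-- `T_ℓ` of the Hecke module structure of `J₀(N)` on divisor classes. -/
theorem heckeGen_smul_mk (N : ℕ) [NeZero N] (hcomm : HeckeOperatorsCommuteBar N)
    (ℓ : ℕ) [NeZero ℓ] (hℓ : ℓ.Prime)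
    [HasPrincipalDivisors (AlgebraicClosure ℚ)
      (laurentBaseChange (AlgebraicClosure ℚ) (modularFunctionFieldFull (N * ℓ)))]
    (D : Divisor.degZero (K := AlgebraicClosure ℚ)
      (F := laurentBaseChange (AlgebraicClosure ℚ) (modularFunctionFieldFull N))) :
    (letI := heckeModuleBar N; heckeGen (⟨ℓ, hℓ⟩ : Nat.Primes) • (Pic0.mk D : JZero N)) =
      Pic0.mk (Pic0.degZeroCorrespondence (heckeBetaBar (AlgebraicClosure ℚ) N ℓ)
        (heckeAlphaBar (AlgebraicClosure ℚ) N ℓ) (ES.heckeBetaBarIntegral N ℓ)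
        (ES.heckeAlphaBarIntegral N ℓ) (fundamentalIdentityAlong_heckeBeta N ℓ) D) := by
  exact (heckeModuleBar_heckeGen_smul hcomm (⟨ℓ, hℓ⟩ : Nat.Primes) _).trans
    ((heckeOperatorBar_apply N (⟨ℓ, hℓ⟩ : Nat.Primes) _).trans (heckeOperatorAlong_mk N ℓ D))

end Fermat.Agent.S37
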