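import Fermat.Agent.S37.Cong
import Fermat.Agent.S37.Formal
import Fermat.Agent.S37.HeckeInputs
import Fermat.Agent.S17.G.FromS27

/-!
# S37 / DivA : the relation module consists of classes of "very good" divisors

`Good N A r Z`   : `Z = r Z' + div G` with `G` congruent to a constant (`IsG`);
`VeryGood N A Z` : `Good N A r Z` for all `r > 0`.

By divisibility of `J₀(N)` (S27), the divisors `τ E - E` (`τ` inertia) and `φ φ B - T_ℓ (φ B) + ℓ B` (`φ` Frobenius) are very good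
for all degree zero divisors `E`, `B`; hence every element of `relSub` is the class of a very good divisor.
-/

set_option autoImplicit false

open AlgebraicCurve ModularCurve

namespace Fermat.Agent.S37

open Fermat.Agent.ES

noncomputable section

/-- `Z = r Z' + div G`, `G` congruent to a constant. -/
def Good (N : ℕ) (A : ValuationSubring Qb) (r : ℕ) (Z : Divisor Qb (FF N)) : Prop :=
  ∃ (Z' : Divisor Qb (FF N)) (G : FF N), IsG N A G ∧ ∀ P : Place Qb (FF N), Z P = r * Z' P + P.ord G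

/-- `Good` for all `r > 0`. -/
def VeryGood (N : ℕ) (A : ValuationSubring Qb) (Z : Divisor Qb (FF N)) : Prop :=
  ∀ r : ℕ, 0 < r → Good N A r Z

variable {N : ℕ} {A : ValuationSubring Qb}

theorem veryGood_zero : VeryGood N A 0 := by
  intro r _
  refine ⟨0, 1, isG_one, fun P => ?_⟩
  rw [Place.ord_one]
  simp

theorem VeryGood.add {Z Z' : Divisor Qb (FF N)} (h : VeryGood N A Z) (h' : VeryGood N A Z') :
    VeryGood N A (Z + Z') := by
  intro r hr
  obtain ⟨Y, G, hG, hY⟩ := h r hr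
  obtain ⟨Y', G', hG', hY'⟩ := h' r hr
  refine ⟨Y + Y', G * G', hG.mul hG', fun P => ?_⟩
  rw [Finsupp.add_apply, Finsupp.add_apply, hY, hY', Place.ord_mul _ hG.ne_zero hG'.ne_zero]
  ring

theorem VeryGood.neg {Z : Divisor Qb (FF N)} (h : VeryGood N A Z) : VeryGood N A (-Z) := by
  intro r hr
  obtain ⟨Y, G, hG, hY⟩ := h r hr
  refine ⟨-Y, G⁻¹, hG.inv, fun P => ?_⟩
  rw [Finsupp.neg_apply, Finsupp.neg_apply, hY, Place.ord_inv]
  ring

/-- divisibility of `J₀(N)`, on divisors -/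
theorem exists_eq_nsmul_add_div [NeZero N] (r : ℕ) (hr : 0 < r)
    (E : Divisor.degZero (K := Qb) (F := FF N)) :
    ∃ (E' : Divisor.degZero (K := Qb) (F := FF N)) (g : FF N), g ≠ 0 ∧
      ∀ P : Place Qb (FF N), (E : Divisor Qb (FF N)) P = r * (E' : Divisor Qb (FF N)) P + P.ord g := by
  have : S26.FF1 (AlgebraicClosure ℚ) (modularFunctionFieldBar N) :=
    S17.G.ff1_of_isFF _ (S17.FL (AlgebraicClosure ℚ) N)
  have halg : Algebra.IsAlgebraic ℚ (AlgebraicClosure ℚ) :=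
    (inferInstance : @Algebra.IsAlgebraic ℚ (AlgebraicClosure ℚ) _ _
      (AlgebraicClosure.instAlgebra ℚ))
  obtain ⟨y, hy⟩ := S17.G.pic0_divisible (AlgebraicClosure ℚ) (modularFunctionFieldBar N)
    ((IsAlgClosed.lift : AlgebraicClosure ℚ →ₐ[ℚ] ℂ) : AlgebraicClosure ℚ →+* ℂ) r hr (Pic0.mk E)
  obtain ⟨E', rfl⟩ := Pic0.mk_surjective y
  have h1 : (QuotientAddGroup.mk (r • E') : Pic0 Qb (FF N)) = QuotientAddGroup.mk E := hy
  rw [QuotientAddGroup.eq] at h1
  obtain ⟨g, hg, hgE⟩ := (AddSubgroup.mem_addSubgroupOf.mp h1 :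
    ((-(r • E') + E : Divisor.degZero (K := Qb) (F := FF N)) : Divisor Qb (FF N))
      ∈ Divisor.principal (K := Qb) (F := FF N))
  refine ⟨E', g, hg, fun P => ?_⟩
  have h2 := hgE P
  simp only [AddSubgroup.coe_add, AddSubgroup.coe_neg, AddSubgroup.coe_nsmul, Finsupp.add_apply,
    Finsupp.neg_apply, Finsupp.smul_apply, nsmul_eq_mul] at h2
  linarith

/-- (A1) the Galois action on principal divisors -/
theorem galois_smul_apply_of_ord (σ : GQ) {D : Divisor Qb (FF N)} {g : FF N}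
    (hD : ∀ P : Place Qb (FF N), D P = P.ord g) (P : Place Qb (FF N)) :
    (arithmeticGalois (modularFunctionFieldFull N) σ • D) P = P.ord (galF N σ g) := by
  rw [SemilinearAut.divisor_smul_apply, hD]
  have h := ord_galF N σ ((arithmeticGalois (modularFunctionFieldFull N) σ)⁻¹ • P) g
  rw [smul_inv_smul] at h
  exact h.symm

/-- (A2) the Hecke correspondence on principal divisors -/
theorem correspondence_apply_of_ord [NeZero N] (ℓ : ℕ) [NeZero ℓ] (hℓ : ℓ.Prime) (hℓN : ¬ ℓ ∣ N)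
    [HasPrincipalDivisors Qb (FF (N * ℓ))]
    {D : Divisor Qb (FF N)} {g : FF N} (hg : g ≠ 0)
    (hD : ∀ P : Place Qb (FF N), D P = P.ord g) (P : Place Qb (FF N)) :
    Divisor.correspondence (heckeBetaBar Qb N ℓ) (heckeAlphaBar Qb N ℓ) (heckeBetaBarIntegral N ℓ)
      (heckeAlphaBarIntegral N ℓ) D P = P.ord (heckeF N ℓ hℓ hℓN g) := by
  have hF : heckeF N ℓ hℓ hℓN g = heckeNorm N ℓ g :=
    Subtype.ext (heckeSer_eq_heckeNorm N ℓ hℓ hℓN g)
  rw [hF]
  change Divisor.pushforwardAlong (heckeAlphaBar Qb N ℓ) (heckeAlphaBarIntegral N ℓ)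
    (Divisor.pullbackAlong (heckeBetaBar Qb N ℓ) (heckeBetaBarIntegral N ℓ) D) P = _
  have h1 : ∀ w : Place Qb (FF (N * ℓ)),
      Divisor.pullbackAlong (heckeBetaBar Qb N ℓ) (heckeBetaBarIntegral N ℓ) D w
        = w.ord (heckeBetaBar Qb N ℓ g) := by
    intro w
    let _ := algebraAlong (heckeBetaBar Qb N ℓ)
    have := isScalarTower_along (heckeBetaBar Qb N ℓ)
    have := isIntegral_along (heckeBetaBar Qb N ℓ) (heckeBetaBarIntegral N ℓ)
    exact Divisor.pullback_apply_eq_ord hD w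
  have hβ : heckeBetaBar Qb N ℓ g ≠ 0 :=
    (map_ne_zero_iff _ (heckeBetaBar Qb N ℓ).toRingHom.injective).mpr hg
  exact normFormulaAlong_heckeAlpha N ℓ _ hβ _ h1 P

/-- abstract bookkeeping for `veryGood_frobenius` -/
theorem DivA_es_decomp {X : Type*} [AddCommGroup X] (Φ T : X →+ X) (ℓ r : ℕ) (B B' D : X)
    (h : B = r • B' + D) :
    Φ (Φ B) - T (Φ B) + ℓ • B
      = r • (Φ (Φ B') - T (Φ B') + ℓ • B') + (Φ (Φ D) - T (Φ D) + ℓ • D) := by
  subst h
  simp only [map_add, map_nsmul, smul_add, smul_sub]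
  rw [smul_comm ℓ r B']
  abel

/-- generators of the first kind -/
theorem veryGood_inertia [NeZero N] {τ : GQ} (hτ : τ ∈ A.inertiaSubgroupIn ℚ)
    (E : Divisor.degZero (K := Qb) (F := FF N)) :
    VeryGood N A (arithmeticGalois (modularFunctionFieldFull N) τ • (E : Divisor Qb (FF N)) - E) := by
  intro r hr
  obtain ⟨E', g, hg, hE⟩ := exists_eq_nsmul_add_div r hr E
  set Γ := arithmeticGalois (L := Qb) (modularFunctionFieldFull N) τ with hΓ
  set Dg : Divisor Qb (FF N) := (E : Divisor Qb (FF N)) - r • (E' : Divisor Qb (FF N)) with hDg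
  have hDgP : ∀ P : Place Qb (FF N), Dg P = P.ord g := by
    intro P
    rw [hDg, Finsupp.sub_apply, Finsupp.smul_apply, hE P, nsmul_eq_mul]
    ring
  have hEq : (E : Divisor Qb (FF N)) = r • (E' : Divisor Qb (FF N)) + Dg := by
    rw [hDg]; abel
  have hg' : galF N τ g ≠ 0 := (map_ne_zero_iff _ (galF N τ).injective).mpr hg
  refine ⟨Γ • (E' : Divisor Qb (FF N)) - E', galF N τ g / g, isG_inertia hτ hg, fun P => ?_⟩
  have h1 := galois_smul_apply_of_ord τ hDgP P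
  rw [← hΓ] at h1
  have h2 : Γ • (E : Divisor Qb (FF N)) = r • (Γ • (E' : Divisor Qb (FF N))) + Γ • Dg := by
    rw [hEq, smul_add, smul_comm]
  rw [S24.FF.ord_div P hg' hg, Finsupp.sub_apply, h2, Finsupp.add_apply, h1, Finsupp.smul_apply,
    hE P, Finsupp.sub_apply, nsmul_eq_mul]
  ring

set_option maxHeartbeats 1600000 in
/-- generators of the second kind -/
theorem veryGood_frobenius [NeZero N] {ℓ : ℕ} [NeZero ℓ] (hℓ : ℓ.Prime) (hℓN : ¬ ℓ ∣ N)
    [HasPrincipalDivisors Qb (FF (N * ℓ))]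
    (hA : A.LiesOverPrime ℓ) {φ : GQ} (hφ : A.IsFrobeniusAt φ ℓ)
    (B : Divisor.degZero (K := Qb) (F := FF N)) :
    VeryGood N A
      (arithmeticGalois (modularFunctionFieldFull N) φ •
          (arithmeticGalois (modularFunctionFieldFull N) φ • (B : Divisor Qb (FF N)))
        - Divisor.correspondence (heckeBetaBar Qb N ℓ) (heckeAlphaBar Qb N ℓ) (heckeBetaBarIntegral N ℓ)
            (heckeAlphaBarIntegral N ℓ) (arithmeticGalois (modularFunctionFieldFull N) φ • (B : Divisor Qb (FF N)))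
        + ℓ • (B : Divisor Qb (FF N))) := by
  intro r hr
  obtain ⟨B', h, hh, hB⟩ := exists_eq_nsmul_add_div r hr B
  set Φ := arithmeticGalois (L := Qb) (modularFunctionFieldFull N) φ with hΦ
  set T := Divisor.correspondence (heckeBetaBar Qb N ℓ) (heckeAlphaBar Qb N ℓ)
    (heckeBetaBarIntegral N ℓ) (heckeAlphaBarIntegral N ℓ) with hT
  set Dh : Divisor Qb (FF N) := (B : Divisor Qb (FF N)) - r • (B' : Divisor Qb (FF N)) with hDh
  have hDhP : ∀ P : Place Qb (FF N), Dh P = P.ord h := by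
    intro P
    rw [hDh, Finsupp.sub_apply, Finsupp.smul_apply, hB P, nsmul_eq_mul]
    ring
  have hEq : (B : Divisor Qb (FF N)) = r • (B' : Divisor Qb (FF N)) + Dh := by
    rw [hDh]; abel
  have hh1 : galF N φ h ≠ 0 := (map_ne_zero_iff _ (galF N φ).injective).mpr hh
  have hh2 : galF N φ (galF N φ h) ≠ 0 := (map_ne_zero_iff _ (galF N φ).injective).mpr hh1
  have hG := isG_frobenius hℓ hℓN hA hφ hh
  have hT0 : heckeF N ℓ hℓ hℓN (galF N φ h) ≠ 0 := by
    intro h0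
    apply hG.ne_zero
    rw [h0, div_zero]
  have h1 : ∀ P : Place Qb (FF N), (Φ • Dh) P = P.ord (galF N φ h) :=
    fun P => galois_smul_apply_of_ord φ hDhP P
  have h2 : ∀ P : Place Qb (FF N), (Φ • (Φ • Dh)) P = P.ord (galF N φ (galF N φ h)) :=
    fun P => galois_smul_apply_of_ord φ h1 P
  have h3 : ∀ P : Place Qb (FF N), T (Φ • Dh) P = P.ord (heckeF N ℓ hℓ hℓN (galF N φ h)) :=
    fun P => correspondence_apply_of_ord ℓ hℓ hℓN hh1 h1 P
  refine ⟨Φ • (Φ • (B' : Divisor Qb (FF N))) - T (Φ • (B' : Divisor Qb (FF N)))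
    + ℓ • (B' : Divisor Qb (FF N)), _, hG, fun P => ?_⟩
  have e := DivA_es_decomp (DistribSMul.toAddMonoidHom (Divisor Qb (FF N)) Φ) T ℓ r
    (B : Divisor Qb (FF N)) (B' : Divisor Qb (FF N)) Dh hEq
  simp only [DistribSMul.toAddMonoidHom_apply] at e
  rw [e, S24.FF.ord_div P (mul_ne_zero hh2 (pow_ne_zero _ hh)) hT0,
    P.ord_mul hh2 (pow_ne_zero _ hh), S24.FF.ord_pow, Finsupp.add_apply, Finsupp.smul_apply,
    nsmul_eq_mul, Finsupp.add_apply (Φ • (Φ • Dh) - T (Φ • Dh)), Finsupp.sub_apply (Φ • (Φ • Dh)),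
    h2, h3, Finsupp.smul_apply, hDhP, nsmul_eq_mul]
  ring

theorem DivA_gal_smul_mk (σ : GQ) (D : Divisor.degZero (K := Qb) (F := FF N)) :
    (σ • (Pic0.mk D : JZero N)) = Pic0.mk
      (SemilinearAut.degZeroSMulHom (arithmeticGalois (modularFunctionFieldFull N) σ) D) := rfl

theorem DivA_mk_add (D E : Divisor.degZero (K := Qb) (F := FF N)) :
    (Pic0.mk (D + E) : JZero N) = Pic0.mk D + Pic0.mk E := rfl

theorem DivA_mk_sub (D E : Divisor.degZero (K := Qb) (F := FF N)) :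
    (Pic0.mk (D - E) : JZero N) = Pic0.mk D - Pic0.mk E := rfl

theorem DivA_mk_nsmul (n : ℕ) (D : Divisor.degZero (K := Qb) (F := FF N)) :
    (Pic0.mk (n • D) : JZero N) = n • Pic0.mk D :=
  map_nsmul (QuotientAddGroup.mk' _) n D

theorem DivA_gen_inertia [NeZero N] {τ : GQ} (hτ : τ ∈ A.inertiaSubgroupIn ℚ) (x : JZero N) :
    ∃ Z : Divisor.degZero (K := Qb) (F := FF N), Pic0.mk Z = τ • x - x ∧
      VeryGood N A (Z : Divisor Qb (FF N)) := by
  obtain ⟨E, rfl⟩ := Pic0.mk_surjective x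
  exact ⟨SemilinearAut.degZeroSMulHom (arithmeticGalois (modularFunctionFieldFull N) τ) E - E,
    rfl, veryGood_inertia hτ E⟩

/-- the divisor representing `esOp (mk B)` -/
def DivA_esDiv [NeZero N] (ℓ : ℕ) [NeZero ℓ] [HasPrincipalDivisors Qb (FF (N * ℓ))] (s₀ : GQ)
    (B : Divisor.degZero (K := Qb) (F := FF N)) : Divisor.degZero (K := Qb) (F := FF N) :=
  SemilinearAut.degZeroSMulHom (arithmeticGalois (modularFunctionFieldFull N) s₀)
      (SemilinearAut.degZeroSMulHom (arithmeticGalois (modularFunctionFieldFull N) s₀) B)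
    - Pic0.degZeroCorrespondence (heckeBetaBar Qb N ℓ) (heckeAlphaBar Qb N ℓ)
        (heckeBetaBarIntegral N ℓ) (heckeAlphaBarIntegral N ℓ)
        (fundamentalIdentityAlong_heckeBeta N ℓ)
        (SemilinearAut.degZeroSMulHom (arithmeticGalois (modularFunctionFieldFull N) s₀) B)
    + ℓ • B

theorem DivA_mk_esDiv [NeZero N] (hcomm : HeckeOperatorsCommuteBar N) (ℓ : ℕ) [NeZero ℓ]
    (hℓ : ℓ.Prime) [HasPrincipalDivisors Qb (FF (N * ℓ))] (s₀ : GQ)
    (B : Divisor.degZero (K := Qb) (F := FF N)) :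
    letI := heckeModuleBar N
    (Pic0.mk (DivA_esDiv ℓ s₀ B) : JZero N)
      = s₀ • s₀ • (Pic0.mk B : JZero N) - heckeGen ⟨ℓ, hℓ⟩ • (s₀ • (Pic0.mk B : JZero N))
        + ℓ • (Pic0.mk B : JZero N) := by
  have h3 := heckeGen_smul_mk N hcomm ℓ hℓ
    (SemilinearAut.degZeroSMulHom (arithmeticGalois (modularFunctionFieldFull N) s₀) B)
  unfold DivA_esDiv
  rw [DivA_mk_add, DivA_mk_sub, DivA_mk_nsmul, ← h3]
  rfl

theorem DivA_veryGood_esDiv [NeZero N] {ℓ : ℕ} [NeZero ℓ] (hℓ : ℓ.Prime) (hℓN : ¬ ℓ ∣ N)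
    [HasPrincipalDivisors Qb (FF (N * ℓ))]
    (hA : A.LiesOverPrime ℓ) {φ : GQ} (hφ : A.IsFrobeniusAt φ ℓ)
    (B : Divisor.degZero (K := Qb) (F := FF N)) :
    VeryGood N A (DivA_esDiv ℓ φ B : Divisor Qb (FF N)) :=
  veryGood_frobenius hℓ hℓN hA hφ B

/-- **Every element of the relation module is the class of a very good divisor.** -/
theorem exists_veryGood [NeZero N] (hcomm : HeckeOperatorsCommuteBar N) :
    letI := heckeModuleBar N
    ∀ (_ : SMulCommClass GQ HeckeAlg (JZero N)) (ℓ : ℕ) (hℓ : ℓ.Prime) (_ : ¬ ℓ ∣ N)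
      (_ : A.LiesOverPrime ℓ) (s₀ : GQ) (_ : A.IsFrobeniusAt s₀ ℓ) (x : JZero N),
      x ∈ relSub (K := ℚ) (JZero N) A ℓ hℓ s₀ →
      ∃ Z : Divisor.degZero (K := Qb) (F := FF N), Pic0.mk Z = x ∧ VeryGood N A (Z : Divisor Qb (FF N)) := by
  let _ := heckeModuleBar N
  intro hSC ℓ hℓ hℓN hA s₀ hs₀ x hx
  have : NeZero ℓ := ⟨hℓ.ne_zero⟩
  have : NeZero (N * ℓ) := ⟨Nat.mul_ne_zero (NeZero.ne N) (NeZero.ne ℓ)⟩
  have := hasPrincipalDivisors_FF (N * ℓ)
  rw [mem_relSub_iff] at hx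
  induction hx using AddSubgroup.closure_induction with
  | mem y hy =>
    rcases hy with ⟨τ, hτ, x, rfl⟩ | ⟨x, rfl⟩
    · exact DivA_gen_inertia hτ x
    · obtain ⟨B, rfl⟩ := Pic0.mk_surjective x
      exact ⟨DivA_esDiv ℓ s₀ B, DivA_mk_esDiv hcomm ℓ hℓ s₀ B, DivA_veryGood_esDiv hℓ hℓN hA hs₀ B⟩
  | zero => exact ⟨0, rfl, veryGood_zero⟩
  | add y y' _ _ hy hy' =>
    obtain ⟨Z, rfl, hZ⟩ := hy
    obtain ⟨Z', rfl, hZ'⟩ := hy'
    exact ⟨Z + Z', rfl, hZ.add hZ'⟩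
  | neg y _ hy =>
    obtain ⟨Z, rfl, hZ⟩ := hy
    exact ⟨-Z, rfl, hZ.neg⟩

end

end Fermat.Agent.S37
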