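import Fermat.Agent.ES.B.Output
import Fermat.Agent.S24.FF.PlaceBasic

/-!
# S37 / Cong : functions which are congruent to a constant

`IsG N A G` : `κ G = y₁ / y₂` for a constant `κ ≠ 0` and two `A`-integral elements `y₁, y₂` of the function field
with the same nonzero reduction ("`G` reduces to a constant").

* `IsG` is stable under products, inverses, powers;
* (B1) `τ g / g` is `IsG` for `τ` in the inertia group;
* (B2) `(φ φ h) h ^ ℓ / T_ℓ (φ h)` is `IsG` for a Frobenius element `φ` (`T_ℓ = heckeF`, the multiplicative Hecke operator).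
-/

set_option autoImplicit false

open AlgebraicCurve ModularCurve

namespace Fermat.Agent.S37

open Fermat.Agent.ES

noncomputable section

/-- `G` is, up to a nonzero constant, a quotient of two `A`-integral functions with the same nonzero reduction. -/
def IsG (N : ℕ) (A : ValuationSubring Qb) (G : FF N) : Prop :=
  ∃ (κ : Qb) (y₁ y₂ : LaurentSeries A), κ ≠ 0 ∧
    coeffMap A.subtype y₁ ∈ modularFunctionFieldBar N ∧
    coeffMap A.subtype y₂ ∈ modularFunctionFieldBar N ∧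
    coeffMap (resA A) y₁ = coeffMap (resA A) y₂ ∧ coeffMap (resA A) y₂ ≠ 0 ∧
    algebraMap Qb (LaurentSeries Qb) κ * (G : LaurentSeries Qb) * coeffMap A.subtype y₂
      = coeffMap A.subtype y₁

variable {N : ℕ} {A : ValuationSubring Qb}

theorem IsG.ne_zero {G : FF N} (h : IsG N A G) : G ≠ 0 := by
  obtain ⟨κ, y₁, y₂, hκ, h₁, h₂, hred, hne, he⟩ := h
  rintro rfl
  have h10 : coeffMap A.subtype y₁ ≠ 0 := coeffMap_subtype_ne_zero (hred ▸ hne)
  apply h10
  rw [← he]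
  simp

theorem isG_one : IsG N A 1 := by
  refine ⟨1, 1, 1, one_ne_zero, ?_, ?_, rfl, ?_, ?_⟩
  · rw [map_one]; exact one_mem _
  · rw [map_one]; exact one_mem _
  · rw [map_one]; exact one_ne_zero
  · simp

theorem IsG.mul {G G' : FF N} (h : IsG N A G) (h' : IsG N A G') : IsG N A (G * G') := by
  obtain ⟨κ, y₁, y₂, hκ, h₁, h₂, hred, hne, he⟩ := h
  obtain ⟨κ', y₁', y₂', hκ', h₁', h₂', hred', hne', he'⟩ := h'
  refine ⟨κ * κ', y₁ * y₁', y₂ * y₂', mul_ne_zero hκ hκ', ?_, ?_, ?_, ?_, ?_⟩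
  · rw [map_mul]; exact mul_mem h₁ h₁'
  · rw [map_mul]; exact mul_mem h₂ h₂'
  · rw [map_mul, map_mul, hred, hred']
  · rw [map_mul]; exact mul_ne_zero hne hne'
  · rw [map_mul, map_mul, map_mul, ← he, ← he', IntermediateField.coe_mul]
    ring

theorem IsG.inv {G : FF N} (h : IsG N A G) : IsG N A G⁻¹ := by
  have hG := h.ne_zero
  obtain ⟨κ, y₁, y₂, hκ, h₁, h₂, hred, hne, he⟩ := h
  refine ⟨κ⁻¹, y₂, y₁, inv_ne_zero hκ, h₂, h₁, hred.symm, hred ▸ hne, ?_⟩
  have hG' : (G : LaurentSeries Qb) ≠ 0 := fun h0 => hG (Subtype.ext h0)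
  have hκ' : algebraMap Qb (LaurentSeries Qb) κ ≠ 0 := by
    rw [Ne, map_eq_zero]; exact hκ
  rw [← he, IntermediateField.coe_inv, map_inv₀]
  field_simp

theorem IsG.div {G G' : FF N} (h : IsG N A G) (h' : IsG N A G') : IsG N A (G / G') := by
  rw [div_eq_mul_inv]
  exact h.mul h'.inv

theorem IsG.pow {G : FF N} (h : IsG N A G) (n : ℕ) : IsG N A (G ^ n) := by
  induction n with
  | zero => rw [pow_zero]; exact isG_one
  | succ n ih => rw [pow_succ]; exact ih.mul h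

/-- nonzero constants -/
theorem isG_algebraMap {c : Qb} (hc : c ≠ 0) : IsG N A (algebraMap Qb (FF N) c) := by
  refine ⟨c⁻¹, 1, 1, inv_ne_zero hc, ?_, ?_, rfl, ?_, ?_⟩
  · rw [map_one]; exact one_mem _
  · rw [map_one]; exact one_mem _
  · rw [map_one]; exact one_ne_zero
  · have hc' : algebraMap Qb (LaurentSeries Qb) c ≠ 0 := by
      rw [Ne, map_eq_zero]; exact hc
    have : ((algebraMap Qb (FF N) c : FF N) : LaurentSeries Qb) = algebraMap Qb (LaurentSeries Qb) c := rfl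
    rw [this, map_one, mul_one, map_inv₀, inv_mul_cancel₀ hc']

/-- (B1) -/
theorem isG_inertia [NeZero N] {τ : GQ} (hτ : τ ∈ A.inertiaSubgroupIn ℚ) {g : FF N} (hg : g ≠ 0) :
    IsG N A (galF N τ g / g) := by
  obtain ⟨c, a, b, hc, ha, hb, ha0, hb0, hab⟩ := exists_integral_fraction N A g hg
  obtain ⟨γ, rfl, hγ⟩ := res_galA_of_inertia hτ
  have hres : ∀ y : LaurentSeries A, coeffMap (resA A) (coeffMap (galA γ) y)
      = coeffMap (resA A) y := fun y => by rw [coeffMap_coeffMap, hγ]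
  have hτc : ((γ : GQ) : Qb →+* Qb) c ≠ 0 := (map_ne_zero _).mpr hc
  refine ⟨c / ((γ : GQ) : Qb →+* Qb) c, coeffMap (galA γ) a * b, a * coeffMap (galA γ) b,
    div_ne_zero hc hτc, ?_, ?_, ?_, ?_, ?_⟩
  · rw [map_mul, coeffMap_subtype_galA]
    exact mul_mem (mem_FF_gal _ ha) hb
  · rw [map_mul, coeffMap_subtype_galA]
    exact mul_mem ha (mem_FF_gal _ hb)
  · rw [map_mul, map_mul, hres, hres]
  · rw [map_mul, hres]
    exact mul_ne_zero ha0 hb0
  · have hg0 : (g : LaurentSeries Qb) ≠ 0 := fun h => hg (Subtype.ext h)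
    have hab' := congrArg (coeffMap (((γ : GQ) : Qb →+* Qb))) hab
    rw [map_mul, map_mul, coeffMap_algebraMap] at hab'
    have hc1 : algebraMap Qb (LaurentSeries Qb) c ≠ 0 :=
      (map_ne_zero (algebraMap Qb (LaurentSeries Qb))).mpr hc
    have hc2 : algebraMap Qb (LaurentSeries Qb) (((γ : GQ) : Qb →+* Qb) c) ≠ 0 :=
      (map_ne_zero (algebraMap Qb (LaurentSeries Qb))).mpr hτc
    rw [map_mul, map_mul, coeffMap_subtype_galA, coeffMap_subtype_galA, map_div₀,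
      IntermediateField.coe_div, coe_galF]
    field_simp
    linear_combination
      (algebraMap Qb (LaurentSeries Qb) c * coeffMap A.subtype a) * hab'
      - (algebraMap Qb (LaurentSeries Qb) (((γ : GQ) : Qb →+* Qb) c) *
          coeffMap (((γ : GQ) : Qb →+* Qb)) (coeffMap A.subtype a)) * hab

namespace CongB2

theorem twist_algebraMap (z : Qbˣ) (c : Qb) :
    twist z (algebraMap Qb (LaurentSeries Qb) c) = algebraMap Qb (LaurentSeries Qb) c := by
  ext n
  rw [twist_coeff, algebraMap_laurentSeries_eq_single, HahnSeries.coeff_single]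
  split_ifs with h
  · subst h; simp
  · simp

theorem contract_algebraMap (ℓ : ℕ) [NeZero ℓ] (c : Qb) :
    contract ℓ (algebraMap Qb (LaurentSeries Qb) c) = algebraMap Qb (LaurentSeries Qb) c := by
  ext n
  rw [contract_coeff, algebraMap_laurentSeries_eq_single, HahnSeries.coeff_single,
    HahnSeries.coeff_single]
  have hℓ : (ℓ : ℤ) ≠ 0 := by exact_mod_cast NeZero.ne ℓ
  by_cases h : n = 0
  · subst h; simp
  · rw [if_neg h, if_neg (mul_ne_zero hℓ h)]

theorem Vq_algebraMap (ℓ : ℕ) [NeZero ℓ] (c : Qb) :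
    Vq Qb ℓ (algebraMap Qb (LaurentSeries Qb) c) = algebraMap Qb (LaurentSeries Qb) c := by
  rw [algebraMap_laurentSeries_eq_single, qExpand_single, mul_zero]

theorem heckeSer_algebraMap (ℓ : ℕ) [NeZero ℓ] (c : Qb) :
    heckeSer ℓ (algebraMap Qb (LaurentSeries Qb) c)
      = algebraMap Qb (LaurentSeries Qb) (c ^ (ℓ + 1)) := by
  obtain ⟨ζ, hζ⟩ := exists_primitiveRoot_Qb ℓ
  have hcard : Fintype.card (rootsOfUnity ℓ Qb) = ℓ := by
    rw [← Nat.card_eq_fintype_card]; exact hζ.card_rootsOfUnity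
  rw [heckeSer, normSer, twistProd, Vq_algebraMap]
  simp only [twist_algebraMap]
  rw [Finset.prod_const, Finset.card_univ, hcard, ← map_pow, contract_algebraMap, ← map_mul,
    pow_succ, mul_comm]

theorem galF_algebraMap (σ : GQ) (c : Qb) :
    galF N σ (algebraMap Qb (FF N) c) = algebraMap Qb (FF N) (σ c) :=
  Subtype.ext (coeffMap_algebraMap (σ : Qb →+* Qb) c)

theorem heckeF_algebraMap [NeZero N] (ℓ : ℕ) [NeZero ℓ] (hℓ : ℓ.Prime) (hℓN : ¬ ℓ ∣ N) (c : Qb) :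
    heckeF N ℓ hℓ hℓN (algebraMap Qb (FF N) c) = algebraMap Qb (FF N) (c ^ (ℓ + 1)) :=
  Subtype.ext (heckeSer_algebraMap ℓ c)

end CongB2

/-- (B2) -/
theorem isG_frobenius [NeZero N] {ℓ : ℕ} [NeZero ℓ] (hℓ : ℓ.Prime) (hℓN : ¬ ℓ ∣ N)
    (hA : A.LiesOverPrime ℓ) {φ : GQ} (hφ : A.IsFrobeniusAt φ ℓ) {h : FF N} (hh : h ≠ 0) :
    IsG N A (galF N φ (galF N φ h) * h ^ ℓ / heckeF N ℓ hℓ hℓN (galF N φ h)) := by
  obtain ⟨c, a, b, hc, ha, hb, ha0, hb0, hab⟩ := exists_integral_fraction N A h hh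
  have hb0' : (⟨_, hb⟩ : FF N) ≠ 0 := fun e =>
    coeffMap_subtype_ne_zero hb0 (congrArg Subtype.val e)
  have ha0' : (⟨_, ha⟩ : FF N) ≠ 0 := fun e =>
    coeffMap_subtype_ne_zero ha0 (congrArg Subtype.val e)
  set aF : FF N := ⟨_, ha⟩ with haF
  set bF : FF N := ⟨_, hb⟩ with hbF
  have hh' : h = algebraMap Qb (FF N) c * (aF / bF) := by
    rw [mul_div_assoc', eq_div_iff hb0']
    exact Subtype.ext hab
  -- multiplicativity
  have hsplit : galF N φ (galF N φ h) * h ^ ℓ / heckeF N ℓ hℓ hℓN (galF N φ h)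
      = algebraMap Qb (FF N) (φ (φ c) * c ^ ℓ / (φ c) ^ (ℓ + 1))
        * (galF N φ (galF N φ (aF / bF)) * (aF / bF) ^ ℓ
            / heckeF N ℓ hℓ hℓN (galF N φ (aF / bF))) := by
    rw [hh']
    simp only [map_mul, CongB2.galF_algebraMap, CongB2.heckeF_algebraMap, mul_pow, map_div₀,
      map_pow]
    ring
  rw [hsplit]
  have hφc : φ c ≠ 0 := by rw [Ne, map_eq_zero]; exact hc
  have hφφc : φ (φ c) ≠ 0 := by rw [Ne, map_eq_zero]; exact hφc
  refine (isG_algebraMap (div_ne_zero (mul_ne_zero hφφc (pow_ne_zero _ hc))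
    (pow_ne_zero _ hφc))).mul ?_
  -- the integral part
  obtain ⟨g, rfl, hg⟩ := res_galA_of_frobenius hℓ hA hφ
  obtain ⟨ζ, hζ⟩ := exists_primitiveRoot_Qb ℓ
  have hres : ∀ y : LaurentSeries A, coeffMap (resA A) (coeffMap (galA g) y)
      = coeffMap (frobA hℓ hA) (coeffMap (resA A) y) := fun y => by
    rw [coeffMap_coeffMap, hg, ← coeffMap_coeffMap]
  have hfrob : ∀ {y : LaurentSeries (kA A)}, y ≠ 0 → coeffMap (frobA hℓ hA) y ≠ 0 := fun hy =>
    coeffMap_ne_zero_of_injective _ (frobA hℓ hA).injective hy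
  have hV : ∀ {y : LaurentSeries (kA A)}, y ≠ 0 → Vq (kA A) ℓ y ≠ 0 := fun hy =>
    (map_ne_zero_iff _ (Vq_injective ℓ)).mpr hy
  refine ⟨1,
    coeffMap (galA g) (coeffMap (galA g) a) * a ^ ℓ * heckeSer ℓ (coeffMap (galA g) b),
    coeffMap (galA g) (coeffMap (galA g) b) * b ^ ℓ * heckeSer ℓ (coeffMap (galA g) a),
    one_ne_zero, ?_, ?_, ?_, ?_, ?_⟩
  · rw [map_mul, map_mul, map_pow, coeffMap_subtype_galA, coeffMap_subtype_galA,
      coeffMap_subtype_heckeSer, coeffMap_subtype_galA]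
    exact mul_mem (mul_mem (mem_FF_gal _ (mem_FF_gal _ ha)) (pow_mem ha ℓ))
      (heckeSer_mem N ℓ hℓ hℓN ⟨_, mem_FF_gal _ hb⟩)
  · rw [map_mul, map_mul, map_pow, coeffMap_subtype_galA, coeffMap_subtype_galA,
      coeffMap_subtype_heckeSer, coeffMap_subtype_galA]
    exact mul_mem (mul_mem (mem_FF_gal _ (mem_FF_gal _ hb)) (pow_mem hb ℓ))
      (heckeSer_mem N ℓ hℓ hℓN ⟨_, mem_FF_gal _ ha⟩)
  · simp only [map_mul, map_pow, coeffMap_res_heckeSer hℓ hA, hres, pow_eq_Vq_frobA hℓ hA]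
    ring
  · simp only [map_mul, map_pow, coeffMap_res_heckeSer hℓ hA, hres]
    exact mul_ne_zero (mul_ne_zero (hfrob (hfrob hb0)) (pow_ne_zero _ hb0))
      (mul_ne_zero (hV (hfrob ha0)) (hfrob (hfrob ha0)))
  · -- identity in the field `FF N`, then coerce
    have hga : ∀ x : FF N, x ≠ 0 → galF N (g : GQ) x ≠ 0 := fun x hx => by
      rw [Ne, map_eq_zero_iff _ (galF N (g : GQ)).injective]; exact hx
    have hT : ∀ x : FF N, x ≠ 0 → heckeF N ℓ hℓ hℓN x ≠ 0 := fun x hx => by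
      exact (heckeU N ℓ hℓ hℓN (Units.mk0 x hx)).ne_zero
    have key : (galF N (g : GQ) (galF N (g : GQ) (aF / bF)) * (aF / bF) ^ ℓ
            / heckeF N ℓ hℓ hℓN (galF N (g : GQ) (aF / bF)))
        * (galF N (g : GQ) (galF N (g : GQ) bF) * bF ^ ℓ * heckeF N ℓ hℓ hℓN (galF N (g : GQ) aF))
        = galF N (g : GQ) (galF N (g : GQ) aF) * aF ^ ℓ
          * heckeF N ℓ hℓ hℓN (galF N (g : GQ) bF) := by
      have h1 := hga _ (hga _ hb0')
      have h2 := hT _ (hga _ hb0')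
      have h3 := hT _ (hga _ ha0')
      have hTdiv : heckeF N ℓ hℓ hℓN (galF N (g : GQ) aF / galF N (g : GQ) bF)
          = heckeF N ℓ hℓ hℓN (galF N (g : GQ) aF) / heckeF N ℓ hℓ hℓN (galF N (g : GQ) bF) := by
        rw [eq_div_iff h2, ← map_mul, div_mul_cancel₀ _ (hga _ hb0')]
      simp only [map_div₀, div_pow, hTdiv]
      field_simp
    have key' := congrArg (Subtype.val : FF N → LaurentSeries Qb) key
    rw [map_one, one_mul]
    simp only [map_mul, map_pow, coeffMap_subtype_galA, coeffMap_subtype_heckeSer]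
    exact key'

/-- the way `Crux` is used -/
theorem IsG.exists_pow_eq {ℓ m : ℕ} (hm : m ≠ 0) (hcrux : Crux N ℓ m) (hA : A.LiesOverPrime ℓ) {W : FF N}
    (hW : IsG N A W) (hdiv : ∀ P : Place Qb (FF N), (m : ℤ) ∣ P.ord W) : ∃ s : FF N, s ^ m = W := by
  have hW0 := hW.ne_zero
  obtain ⟨κ, y₁, y₂, hκ, h₁, h₂, hred, hne, he⟩ := hW
  have h20 : (⟨_, h₂⟩ : FF N) ≠ 0 := by
    intro h
    exact coeffMap_subtype_ne_zero hne (congrArg Subtype.val h)
  have hκ' : algebraMap Qb (FF N) κ ≠ 0 := by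
    rw [Ne, map_eq_zero]; exact hκ
  have hq : (⟨_, h₁⟩ : FF N) / ⟨_, h₂⟩ = algebraMap Qb (FF N) κ * W := by
    rw [div_eq_iff h20]
    exact Subtype.ext he.symm
  obtain ⟨s, hs⟩ := hcrux A hA y₁ y₂ h₁ h₂ hred hne (by
    intro P
    rw [hq, P.ord_mul hκ' hW0, S24.FF.ord_algebraMap, zero_add]
    exact hdiv P)
  rw [hq] at hs
  obtain ⟨d, hd⟩ := IsAlgClosed.exists_pow_nat_eq κ (Nat.pos_of_ne_zero hm)
  have hd0 : d ≠ 0 := by
    rintro rfl
    rw [zero_pow hm] at hd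
    exact hκ hd.symm
  have hd0' : algebraMap Qb (FF N) d ≠ 0 := by
    rw [Ne, map_eq_zero]; exact hd0
  refine ⟨s / algebraMap Qb (FF N) d, ?_⟩
  rw [div_pow, hs, ← map_pow, hd, mul_div_cancel_left₀ _ hκ']

end

end Fermat.Agent.S37
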