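import Fermat.Agent.S37.DivA
import Fermat.Agent.Crux.Main
import Fermat.Agent.S54.Frobenius

/-!
# S37 / Main : injectivity on torsion from (CONST), and the final reduction of S37 to (CONST)
-/

set_option autoImplicit false

open AlgebraicCurve ModularCurve

namespace Fermat.Agent.S37

open Fermat.Agent.ES

noncomputable section

/-- **(CONST)** at level `N`: a function which, for every `k`, is congruent (up to a function which reduces to a constant)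
to a function with divisor divisible by `p ^ k`, reduces to a constant. -/
def ConstN (N : ℕ) (A : ValuationSubring Qb) (p : ℕ) : Prop :=
  ∀ W : FF N, W ≠ 0 →
    (∀ k : ℕ, ∃ W' G : FF N, W' ≠ 0 ∧ W = W' * G ∧
      (∀ P : Place Qb (FF N), ((p ^ k : ℕ) : ℤ) ∣ P.ord W') ∧ IsG N A G) →
    IsG N A W

variable {N : ℕ} {A : ValuationSubring Qb}

/-- a very good divisor `Z` with `m Z = div W`: `W` satisfies the hypothesis of (CONST) -/
theorem VeryGood.exists_factor {Z : Divisor Qb (FF N)} (hZ : VeryGood N A Z) {m : ℕ} {W : FF N} (hW : W ≠ 0)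
    (hZW : ∀ P : Place Qb (FF N), (m : ℤ) * Z P = P.ord W) (r : ℕ) (hr : 0 < r) :
    ∃ W' G : FF N, W' ≠ 0 ∧ W = W' * G ∧ (∀ P : Place Qb (FF N), (r : ℤ) ∣ P.ord W') ∧ IsG N A G := by
  obtain ⟨Z', G₀, hG₀, hZ'⟩ := hZ r hr
  have hG0 : G₀ ≠ 0 := hG₀.ne_zero
  have hGm : G₀ ^ m ≠ 0 := pow_ne_zero _ hG0
  refine ⟨W / G₀ ^ m, G₀ ^ m, div_ne_zero hW hGm, (div_mul_cancel₀ _ hGm).symm, fun P => ?_,
    hG₀.pow m⟩
  have h1 : P.ord (W / G₀ ^ m) = P.ord W - m * P.ord G₀ := by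
    rw [div_eq_mul_inv, P.ord_mul hW (inv_ne_zero hGm), P.ord_inv, ← zpow_natCast, P.ord_zpow]
    ring
  rw [h1, ← hZW P, hZ' P]
  exact ⟨m * Z' P, by ring⟩

/-- a degree zero divisor whose class is killed by `m` -/
theorem exists_ord_eq_of_nsmul_eq_zero (Z : Divisor.degZero (K := Qb) (F := FF N)) (m : ℕ)
    (h : m • (Pic0.mk Z : JZero N) = 0) :
    ∃ W : FF N, W ≠ 0 ∧ ∀ P : Place Qb (FF N), (m : ℤ) * (Z : Divisor Qb (FF N)) P = P.ord W := by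
  have h1 : (Pic0.mk (m • Z) : JZero N) = 0 := by
    rw [← h]
    rfl
  have h2 : (m • Z) ∈ (Divisor.principal (K := Qb) (F := FF N)).addSubgroupOf
      (Divisor.degZero (K := Qb) (F := FF N)) := (QuotientAddGroup.eq_zero_iff _).1 h1
  rw [AddSubgroup.mem_addSubgroupOf] at h2
  obtain ⟨W, hW, hWZ⟩ := h2
  refine ⟨W, hW, fun P => ?_⟩
  rw [← hWZ P]
  simp

/-- `m Z = div (s ^ m)` implies `[Z] = 0` -/
theorem mk_eq_zero_of_pow (Z : Divisor.degZero (K := Qb) (F := FF N)) {m : ℕ} (hm : m ≠ 0) {s : FF N}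
    (hs : s ≠ 0) (h : ∀ P : Place Qb (FF N), (m : ℤ) * (Z : Divisor Qb (FF N)) P = P.ord (s ^ m)) :
    (Pic0.mk Z : JZero N) = 0 := by
  refine (QuotientAddGroup.eq_zero_iff _).2 ?_
  rw [AddSubgroup.mem_addSubgroupOf]
  refine ⟨s, hs, fun P => ?_⟩
  have h1 := h P
  rw [← zpow_natCast, P.ord_zpow] at h1
  exact mul_left_cancel₀ (Nat.cast_ne_zero.2 hm) h1

/-- **Injectivity on `p`-power torsion.** -/
theorem hinj_of_constN [NeZero N] (hcomm : HeckeOperatorsCommuteBar N) (p : ℕ) :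
    letI := heckeModuleBar N
    ∀ (_ : SMulCommClass GQ HeckeAlg (JZero N)) (ℓ : ℕ) (hℓ : ℓ.Prime) (_ : ¬ ℓ ∣ N * p)
      (_ : A.LiesOverPrime ℓ) (_ : 2 ≤ p → ConstN N A p) (s₀ : GQ) (_ : A.IsFrobeniusAt s₀ ℓ) (x : JZero N),
      x ∈ relSub (K := ℚ) (JZero N) A ℓ hℓ s₀ → (∃ n : ℕ, p ^ n • x = 0) → x = 0 := by
  letI := heckeModuleBar N
  rintro hsc ℓ hℓ hℓNp hA hconst s₀ hs₀ x hx ⟨n, hn⟩
  have hℓN : ¬ ℓ ∣ N := fun h => hℓNp (Dvd.dvd.mul_right h p)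
  have hℓp : ¬ ℓ ∣ p := fun h => hℓNp (Dvd.dvd.mul_left h N)
  have hp0 : p ≠ 0 := by
    rintro rfl
    exact hℓp (dvd_zero _)
  rcases eq_or_ne p 1 with rfl | hp1
  · rwa [one_pow, one_smul] at hn
  have hconst := hconst (by omega)
  obtain ⟨Z, rfl, hZ⟩ := exists_veryGood hcomm hsc ℓ hℓ hℓN hA s₀ hs₀ x hx
  have hm : p ^ n ≠ 0 := pow_ne_zero _ hp0
  obtain ⟨W, hW, hZW⟩ := exists_ord_eq_of_nsmul_eq_zero Z (p ^ n) hn
  have hG : IsG N A W :=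
    hconst W hW fun k => hZ.exists_factor hW hZW (p ^ k) (pow_pos (Nat.pos_of_ne_zero hp0) k)
  have hdiv : ∀ P : Place Qb (FF N), ((p ^ n : ℕ) : ℤ) ∣ P.ord W := fun P => ⟨_, (hZW P).symm⟩
  have hℓm : ¬ ℓ ∣ p ^ n := fun h => hℓp (hℓ.dvd_of_dvd_pow h)
  obtain ⟨s, hs⟩ := hG.exists_pow_eq hm (Crux.crux N ℓ (p ^ n) hℓ hℓN hℓm) hA hdiv
  have hs0 : s ≠ 0 := by
    rintro rfl
    rw [zero_pow hm] at hs
    exact hW hs.symm
  exact mk_eq_zero_of_pow Z hm hs0 fun P => by rw [hs]; exact hZW P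

/-- **S37 from (CONST).** -/
theorem specializationExists_of_constN (N p : ℕ) [NeZero N] (hcomm : HeckeOperatorsCommuteBar N)
    (hconst : 2 ≤ p → ∀ (ℓ : ℕ), ℓ.Prime → ¬ ℓ ∣ N * p → ∀ A : ValuationSubring Qb, A.LiesOverPrime ℓ →
      ConstN N A p) :
    letI := heckeModuleBar N
    ∀ (_ : SMulCommClass GQ HeckeAlg (JZero N)),
      SpecializationExists (K := ℚ) (L := Qb) N p (JZero N) := by
  letI := heckeModuleBar N
  intro hsc ℓ hℓ hℓNp A hA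
  obtain ⟨s₀, hs₀⟩ := Fermat.Agent.S54.exists_isFrobeniusAt ℓ hℓ A hA
  exact exists_specialization_of_inj p (JZero N) A ℓ hℓ s₀ hs₀
    (hinj_of_constN hcomm p hsc ℓ hℓ hℓNp hA (fun hp => hconst hp ℓ hℓ hℓNp A hA) s₀ hs₀)

end

end Fermat.Agent.S37
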